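import Fermat.Agent.Lib.CFT.Coh.CohTriv.PGroup

/-!
# Freeness criterion over a `p`-group

For a finite `p`-group `G` and a `G`-module `A` killed by `p` with `H₁(G, A) = 0`, the module `A` is
isomorphic to a "regular" module `G →₀ X` (free over `𝔽_p[G]`).

Everything is stated for unbundled representations `ρ : Representation ℤ G A`; the vanishing of
`H₁` is expressed with the explicit low-degree differentials `bd₁`, `bd₂` (which agree by
definition with Mathlib's `groupHomology.d₁₀`, `groupHomology.d₂₁`).
-/

set_option autoImplicit false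

namespace Fermat.Agent.Lib.CFT.Coh

open Representation Finsupp

section regular

variable (G : Type*) [Group G] (X : Type*) [AddCommGroup X]

/-- The regular representation with coefficients in `X`: `G` acts on `G →₀ X` by left translation
of the index. -/
noncomputable def regularRep : Representation ℤ G (G →₀ X) where
  toFun g := Finsupp.lmapDomain X ℤ (g * ·)
  map_one' := by
    ext h x : 2
    simp
  map_mul' g₁ g₂ := by
    ext h x : 2
    simp [mul_assoc]

variable {G X}

@[simp]
theorem regularRep_single (g h : G) (x : X) :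
    regularRep G X g (single h x) = single (g * h) x := by
  simp [regularRep]

/-- The augmentation `G →₀ X → X`, `l ↦ ∑ h, l h`. -/
noncomputable def regularAug : (G →₀ X) →ₗ[ℤ] X := Finsupp.lsum ℤ fun _ => LinearMap.id

omit [Group G] in
@[simp]
theorem regularAug_single (h : G) (x : X) : regularAug (single h x) = x := by
  simp [regularAug]

theorem regularAug_regularRep (g : G) (l : G →₀ X) :
    regularAug (regularRep G X g l) = regularAug l := by
  induction l using Finsupp.induction_linear with
  | zero => simp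
  | add a b ha hb => simp [map_add, ha, hb]
  | single h x => simp

/-- The coinvariants kernel of the regular representation is the kernel of the augmentation. -/
theorem coinvariantsKer_regularRep :
    Coinvariants.ker (regularRep G X) = LinearMap.ker (regularAug (G := G) (X := X)) := by
  apply le_antisymm
  · refine Submodule.span_le.mpr ?_
    rintro _ ⟨⟨g, l⟩, rfl⟩
    simp [regularAug_regularRep]
  · intro l hl
    have key : ∀ l : G →₀ X, l - single 1 (regularAug l) ∈ Coinvariants.ker (regularRep G X) := by
      intro l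
      induction l using Finsupp.induction_linear with
      | zero => simp
      | add a b ha hb =>
        have : a + b - single 1 (regularAug (a + b)) =
            (a - single 1 (regularAug a)) + (b - single 1 (regularAug b)) := by
          rw [map_add, single_add]; abel
        rw [this]; exact Submodule.add_mem _ ha hb
      | single h x =>
        refine Coinvariants.mem_ker_of_eq h (single 1 x) _ ?_
        simp
    have := key l
    rw [LinearMap.mem_ker.mp hl] at this
    simpa using this

end regular

section differentials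

variable {G : Type*} [Group G] {A B : Type*} [AddCommGroup A] [AddCommGroup B]
  (ρ : Representation ℤ G A) (σ : Representation ℤ G B)

/-- The differential `C₁(G, A) → C₀(G, A)` of inhomogeneous chains,
`single g a ↦ ρ g⁻¹ a - a` (same formula as Mathlib's `groupHomology.d₁₀`). -/
noncomputable def bd₁ : (G →₀ A) →ₗ[ℤ] A := Finsupp.lsum ℤ fun g => ρ g⁻¹ - LinearMap.id

/-- The differential `C₂(G, A) → C₁(G, A)` of inhomogeneous chains
(same formula as Mathlib's `groupHomology.d₂₁`). -/
noncomputable def bd₂ : (G × G →₀ A) →ₗ[ℤ] (G →₀ A) :=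
  Finsupp.lsum ℤ fun g => Finsupp.lsingle g.2 ∘ₗ ρ g.1⁻¹ - Finsupp.lsingle (g.1 * g.2) +
    Finsupp.lsingle g.1

@[simp]
theorem bd₁_single (g : G) (a : A) : bd₁ ρ (single g a) = ρ g⁻¹ a - a := by
  simp [bd₁]

@[simp]
theorem bd₂_single (g : G × G) (a : A) :
    bd₂ ρ (single g a) = single g.2 (ρ g.1⁻¹ a) - single (g.1 * g.2) a + single g.1 a := by
  simp [bd₂]

theorem bd₁_bd₂ (y : G × G →₀ A) : bd₁ ρ (bd₂ ρ y) = 0 := by
  induction y using Finsupp.induction_linear with
  | zero => simp
  | add a b ha hb => simp [map_add, ha, hb]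
  | single g a => simp [map_mul]

theorem range_bd₁ : LinearMap.range (bd₁ ρ) = Coinvariants.ker ρ := by
  apply le_antisymm
  · rintro _ ⟨x, rfl⟩
    induction x using Finsupp.induction_linear with
    | zero => simp
    | add a b ha hb => rw [map_add]; exact Submodule.add_mem _ ha hb
    | single g a => rw [bd₁_single]; exact Coinvariants.sub_mem_ker g⁻¹ a
  · refine Submodule.span_le.mpr ?_
    rintro _ ⟨⟨g, a⟩, rfl⟩
    exact ⟨single g⁻¹ a, by simp⟩

variable {ρ σ}

theorem bd₁_mapRange (f : A →ₗ[ℤ] B) (hf : ∀ g a, f (ρ g a) = σ g (f a)) (x : G →₀ A) :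
    bd₁ σ (Finsupp.mapRange.linearMap f x) = f (bd₁ ρ x) := by
  induction x using Finsupp.induction_linear with
  | zero => simp
  | add a b ha hb => simp only [map_add, ha, hb]
  | single g a => simp [hf]

theorem bd₂_mapRange (f : A →ₗ[ℤ] B) (hf : ∀ g a, f (ρ g a) = σ g (f a)) (y : G × G →₀ A) :
    bd₂ σ (Finsupp.mapRange.linearMap f y) = Finsupp.mapRange.linearMap f (bd₂ ρ y) := by
  induction y using Finsupp.induction_linear with
  | zero => simp
  | add a b ha hb => simp only [map_add, ha, hb]
  | single g a => simp [hf, map_sub, map_add]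

variable (ρ) in
/-- `H₁(G, A) = 0`, stated with explicit chains: every `1`-cycle is a `1`-boundary. -/
def H1Vanishes : Prop := ∀ x : G →₀ A, bd₁ ρ x = 0 → x ∈ LinearMap.range (bd₂ ρ)

/-- If `π : L → A` is a surjective equivariant map and `H₁(G, A) = 0`, then an element of `ker π`
which dies in the coinvariants of `L` already dies in the coinvariants of `ker π`
(injectivity of `(ker π)_G → L_G`). -/
theorem mem_span_of_mem_ker_of_mem_coinvariantsKer {L : Type*} [AddCommGroup L]
    {τ : Representation ℤ G L} (π : L →ₗ[ℤ] A) (hπ : ∀ g l, π (τ g l) = ρ g (π l))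
    (hsurj : Function.Surjective π) (hH1 : H1Vanishes ρ) {r : L} (hr : π r = 0)
    (hr' : r ∈ Coinvariants.ker τ) :
    r ∈ Submodule.span ℤ {v | ∃ (g : G) (r' : L), π r' = 0 ∧ v = τ g r' - r'} := by
  rw [← range_bd₁] at hr'
  obtain ⟨y, rfl⟩ := hr'
  -- the image of `y` is a cycle, hence a boundary
  have hcyc : bd₁ ρ (Finsupp.mapRange.linearMap π y) = 0 := by
    rw [bd₁_mapRange π hπ, hr]
  obtain ⟨z, hz⟩ := hH1 _ hcyc
  obtain ⟨z', rfl⟩ : ∃ z' : G × G →₀ L, Finsupp.mapRange.linearMap π z' = z :=
    Finsupp.mapRange_surjective π (map_zero π) hsurj z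
  set y' := y - bd₂ τ z' with hy'
  have hy'ker : Finsupp.mapRange.linearMap π y' = 0 := by
    rw [hy', map_sub, ← bd₂_mapRange π hπ, hz, sub_self]
  have hbd : bd₁ τ y = bd₁ τ y' := by
    rw [hy', map_sub, bd₁_bd₂, sub_zero]
  rw [hbd]
  -- `y'` has coefficients in `ker π`
  have hcoef : ∀ g, π (y' g) = 0 := fun g => by
    have := DFunLike.congr_fun hy'ker g
    simpa using this
  have hsum : bd₁ τ y' = y'.sum fun g a => τ g⁻¹ a - a := by
    rw [bd₁, Finsupp.lsum_apply]
    rfl
  rw [hsum]
  exact Submodule.sum_mem _ fun g _ => Submodule.subset_span ⟨g⁻¹, y' g, hcoef g, rfl⟩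

/-- An equivariant map sends the coinvariants kernel into the coinvariants kernel. -/
theorem map_mem_coinvariantsKer (f : A →ₗ[ℤ] B) (hf : ∀ g a, f (ρ g a) = σ g (f a)) {a : A}
    (ha : a ∈ Coinvariants.ker ρ) : f a ∈ Coinvariants.ker σ := by
  induction ha using Submodule.span_induction with
  | mem x hx =>
    obtain ⟨⟨g, v⟩, rfl⟩ := hx
    simp only [map_sub, hf]
    exact Coinvariants.sub_mem_ker g (f v)
  | zero => simp
  | add x y _ _ hx hy => rw [map_add]; exact Submodule.add_mem _ hx hy
  | smul c x _ hx => rw [map_smul]; exact Submodule.smul_mem _ c hx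

end differentials

section freeness

variable {p : ℕ} [hp : Fact p.Prime] {G : Type*} [Group G] [Finite G] {A : Type*} [AddCommGroup A]
  (ρ : Representation ℤ G A) {L : Type*} [AddCommGroup L] (τ : Representation ℤ G L)

/-- Nakayama-type surjectivity criterion over a `p`-group: an equivariant map into a module killed
by `p` which is surjective on coinvariants is surjective. -/
theorem surjective_of_surjective_on_coinvariants (hG : IsPGroup p G) (hpA : ∀ a : A, p • a = 0)
    (π : L →ₗ[ℤ] A) (hπ : ∀ g l, π (τ g l) = ρ g (π l))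
    (h : ∀ a, ∃ l, a - π l ∈ Coinvariants.ker ρ) : Function.Surjective π := by
  have hstab : ∀ g, LinearMap.range π ≤ (LinearMap.range π).comap (ρ g) := by
    rintro g _ ⟨l, rfl⟩
    exact ⟨τ g l, hπ g l⟩
  have hC : Coinvariants.ker (ρ.quotient (LinearMap.range π) hstab) = ⊤ := by
    rw [eq_top_iff]
    rintro c -
    obtain ⟨a, rfl⟩ := Submodule.Quotient.mk_surjective _ c
    obtain ⟨l, h1⟩ := h a
    have h2 := map_mem_coinvariantsKer (ρ := ρ) (σ := ρ.quotient (LinearMap.range π) hstab)
      (LinearMap.range π).mkQ (fun g a => rfl) h1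
    have h3 : (LinearMap.range π).mkQ (a - π l) = Submodule.Quotient.mk a := by
      rw [map_sub, Submodule.mkQ_apply, Submodule.mkQ_apply, sub_eq_self,
        Submodule.Quotient.mk_eq_zero]
      exact ⟨_, rfl⟩
    rwa [h3] at h2
  have hpC : ∀ c : A ⧸ LinearMap.range π, p • c = 0 := by
    intro c
    obtain ⟨a, rfl⟩ := Submodule.Quotient.mk_surjective _ c
    rw [← Submodule.Quotient.mk_smul, hpA, Submodule.Quotient.mk_zero]
  have hsub := subsingleton_of_coinvariantsKer_eq_top hG _ hpC hC
  rw [← LinearMap.range_eq_top]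
  exact Submodule.Quotient.subsingleton_iff.mp hsub

/-- Injectivity criterion over a `p`-group: a surjective equivariant map `π : L → A` from a module
killed by `p`, injective on coinvariants, is injective as soon as `H₁(G, A) = 0`. -/
theorem injective_of_injective_on_coinvariants (hG : IsPGroup p G) (hpL : ∀ l : L, p • l = 0)
    (π : L →ₗ[ℤ] A) (hπ : ∀ g l, π (τ g l) = ρ g (π l)) (hsurj : Function.Surjective π)
    (hH1 : H1Vanishes ρ) (h : ∀ l, π l = 0 → l ∈ Coinvariants.ker τ) :
    Function.Injective π := by
  rw [← LinearMap.ker_eq_bot]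
  have hstab : ∀ g, LinearMap.ker π ≤ (LinearMap.ker π).comap (τ g) := by
    intro g l hl
    rw [Submodule.mem_comap, LinearMap.mem_ker, hπ, LinearMap.mem_ker.mp hl, map_zero]
  have hR : Coinvariants.ker (τ.subrepresentation (LinearMap.ker π) hstab) = ⊤ := by
    rw [eq_top_iff]
    rintro ⟨r, hr⟩ -
    have hr0 : π r = 0 := hr
    have hspan := mem_span_of_mem_ker_of_mem_coinvariantsKer π hπ hsurj hH1 hr0 (h r hr0)
    -- transfer to the subtype
    have key : ∀ v ∈ Submodule.span ℤ {v | ∃ (g : G) (r' : L), π r' = 0 ∧ v = τ g r' - r'},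
        ∃ hv : v ∈ LinearMap.ker π, (⟨v, hv⟩ : LinearMap.ker π) ∈
          Coinvariants.ker (τ.subrepresentation (LinearMap.ker π) hstab) := by
      intro v hv
      induction hv using Submodule.span_induction with
      | mem x hx =>
        obtain ⟨g, r', hr', rfl⟩ := hx
        have hmem : r' ∈ LinearMap.ker π := hr'
        refine ⟨Submodule.sub_mem _ (hstab g hmem) hmem, ?_⟩
        exact Coinvariants.sub_mem_ker (ρ := τ.subrepresentation (LinearMap.ker π) hstab) g
          ⟨r', hmem⟩
      | zero => exact ⟨Submodule.zero_mem _, Submodule.zero_mem _⟩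
      | add x y _ _ hx hy =>
        obtain ⟨hx1, hx2⟩ := hx
        obtain ⟨hy1, hy2⟩ := hy
        exact ⟨Submodule.add_mem _ hx1 hy1, Submodule.add_mem _ hx2 hy2⟩
      | smul c x _ hx =>
        obtain ⟨hx1, hx2⟩ := hx
        exact ⟨Submodule.smul_mem _ c hx1, Submodule.smul_mem _ c hx2⟩
    obtain ⟨_, h2⟩ := key r hspan
    exact h2
  have hpR : ∀ r : LinearMap.ker π, p • r = 0 := fun r => Subtype.ext (by simpa using hpL r.1)
  have hsub := subsingleton_of_coinvariantsKer_eq_top hG _ hpR hR
  exact Submodule.subsingleton_iff_eq_bot.mp hsub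

/-- **Freeness criterion.** Let `G` be a finite `p`-group and `A` a `G`-module killed by `p` with
`H₁(G, A) = 0`. Then `A` is isomorphic to the regular module `G →₀ X` with `X = A_G`. -/
theorem exists_regularRep_equiv (hG : IsPGroup p G) (hpA : ∀ a : A, p • a = 0)
    (hH1 : H1Vanishes ρ) :
    ∃ e : (G →₀ Coinvariants ρ) ≃ₗ[ℤ] A,
      ∀ g l, e (regularRep G (Coinvariants ρ) g l) = ρ g (e l) := by
  classical
  -- `X = A_G` is killed by `p`
  have hpX : ∀ x : Coinvariants ρ, p • x = 0 := by
    intro x
    induction x using Coinvariants.induction_on with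
    | h v => rw [← map_nsmul, hpA, map_zero]
  -- a section of `A → A_G`
  obtain ⟨s, hs⟩ : ∃ s : Coinvariants ρ →ₗ[ℤ] A, ∀ x, Coinvariants.mk ρ (s x) = x := by
    obtain ⟨_instA⟩ : Nonempty (Module (ZMod p) A) := ⟨AddCommGroup.zmodModule hpA⟩
    obtain ⟨_instX⟩ : Nonempty (Module (ZMod p) (Coinvariants ρ)) :=
      ⟨AddCommGroup.zmodModule hpX⟩
    let mkZ : A →ₗ[ZMod p] Coinvariants ρ :=
      (Coinvariants.mk ρ).toAddMonoidHom.toZModLinearMap p
    have hsurj : LinearMap.range mkZ = ⊤ :=
      LinearMap.range_eq_top.mpr (Coinvariants.mk_surjective ρ)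
    obtain ⟨g, hg⟩ := mkZ.exists_rightInverse_of_surjective hsurj
    refine ⟨g.toAddMonoidHom.toIntLinearMap, fun x => ?_⟩
    exact LinearMap.congr_fun hg x
  -- the comparison map
  obtain ⟨π, hπs⟩ : ∃ π : (G →₀ Coinvariants ρ) →ₗ[ℤ] A, ∀ h x, π (single h x) = ρ h (s x) :=
    ⟨Finsupp.lsum ℤ fun h => ρ h ∘ₗ s, fun h x => by simp⟩
  have hπ : ∀ g l, π (regularRep G _ g l) = ρ g (π l) := by
    intro g l
    induction l using Finsupp.induction_linear with
    | zero => simp
    | add a b ha hb => simp only [map_add, ha, hb]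
    | single h x => rw [regularRep_single, hπs, hπs, map_mul]; rfl
  have hmk : ∀ l, Coinvariants.mk ρ (π l) = regularAug l := by
    intro l
    induction l using Finsupp.induction_linear with
    | zero => simp
    | add a b ha hb => simp only [map_add, ha, hb]
    | single h x => rw [hπs, Coinvariants.mk_self_apply, hs, regularAug_single]
  have hsurj : Function.Surjective π := by
    refine surjective_of_surjective_on_coinvariants ρ (regularRep G _) hG hpA π hπ fun a => ?_
    refine ⟨single 1 (Coinvariants.mk ρ a), ?_⟩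
    rw [← Coinvariants.mk_eq_zero, map_sub, hmk, regularAug_single, sub_self]
  have hpL : ∀ l : G →₀ Coinvariants ρ, p • l = 0 := by
    intro l
    ext g
    simp [hpX]
  have hinj : Function.Injective π := by
    refine injective_of_injective_on_coinvariants ρ (regularRep G _) hG hpL π hπ hsurj hH1
      fun l hl => ?_
    rw [coinvariantsKer_regularRep, LinearMap.mem_ker, ← hmk, hl, map_zero]
  exact ⟨LinearEquiv.ofBijective π ⟨hinj, hsurj⟩, fun g l => hπ g l⟩

end freeness

end Fermat.Agent.Lib.CFT.Coh
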