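/-
Cohomological triviality, part 3: for a `p`-group `G` and a `G`-module `A` killed by `p`,
`Ĥ⁻²(G, A) = H₁(G, A) = 0` implies that `A` is free over `𝔽_p[G]`, hence cohomologically
trivial.  Also: regular modules are cohomologically trivial.
-/
import Mathlib
import Fermat.Agent.Lib.CFT.Coh.CohTriv.Free
import Fermat.Agent.Lib.CFT.Coh.Induced

namespace Fermat.Agent.Lib.CFT.Coh

open Representation Finsupp CategoryTheory CategoryTheory.Limits

/-- Induction principle: to prove a statement about all `C : Rep ℤ G` it suffices to prove it for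
`Rep.of ρ` with `ρ` a representation on an abelian group with its canonical `ℤ`-module
structure. -/
theorem rep_int_induction {G : Type} [Group G] {motive : Rep.{0} ℤ G → Prop}
    (h : ∀ (A : Type) [AddCommGroup A] (ρ : Representation ℤ G A), motive (Rep.of ρ))
    (C : Rep.{0} ℤ G) : motive C := by
  rcases C with @⟨V, hV1, hV2, ρ⟩
  obtain rfl : hV2 = AddCommGroup.toIntModule V := Subsingleton.elim _ _
  exact h V ρ

section regular

variable {G : Type} [Group G] (X : Type) [AddCommGroup X]

theorem regularRep_apply (g : G) (l : G →₀ X) (x : G) :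
    regularRep G X g l x = l (g⁻¹ * x) := by
  induction l using Finsupp.induction_linear with
  | zero => simp
  | add a b ha hb => simp only [map_add, Finsupp.add_apply, ha, hb]
  | single h y =>
    classical
    rw [regularRep_single, Finsupp.single_apply, Finsupp.single_apply]
    have : (g * h = x) ↔ (h = g⁻¹ * x) := by
      constructor
      · intro h1
        rw [← h1]; group
      · intro h1
        rw [h1]; group
    simp only [this]

/-- `l ↦ (x ↦ l x⁻¹)`. -/
noncomputable def regularLinearEquiv [Finite G] : (G →₀ X) ≃ₗ[ℤ] (G → X) :=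
  (Finsupp.linearEquivFunOnFinite ℤ X G).trans (LinearEquiv.funCongrLeft ℤ X (Equiv.inv G))

@[simp] theorem regularLinearEquiv_apply [Finite G] (l : G →₀ X) (x : G) :
    regularLinearEquiv X l x = l x⁻¹ := rfl

/-- The regular module `ℤ[G] ⊗ X` is isomorphic to the coinduced module `Fun(G, X)` when `G` is
finite. -/
noncomputable def regularEquivCoind₁ [Finite G] :
    (regularRep G X).Equiv (coind₁Rep ℤ G X) :=
  Representation.Equiv.mk (regularLinearEquiv X)
    (fun g => by
      apply LinearMap.ext
      intro l
      funext y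
      simp [regularRep_apply, coind₁Rep_apply])

theorem isCohTrivial_regularRep [Finite G] : IsCohTrivial (Rep.of (regularRep G X)) :=
  (isCohTrivial_coind₁ (R := ℤ) (G := G) X).of_iso (Rep.mkIso (regularEquivCoind₁ X)).symm

end regular

section bridge

variable {G : Type} [Group G] [Fintype G] {A : Type} [AddCommGroup A]
  (ρ : Representation ℤ G A)

theorem bd₁_eq_d₁₀ (x : G →₀ A) : bd₁ ρ x = (groupHomology.d₁₀ (Rep.of ρ)).hom x := rfl

theorem bd₂_eq_d₂₁ (x : G × G →₀ A) : bd₂ ρ x = (groupHomology.d₂₁ (Rep.of ρ)).hom x := rfl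

/-- `H₁(G, A) = 0` in Mathlib's sense gives the concrete vanishing statement. -/
theorem h1Vanishes_of_isZero_groupHomology (h : IsZero (groupHomology (Rep.of ρ) 1)) :
    H1Vanishes ρ := by
  intro x hx
  have hx' : x ∈ groupHomology.cycles₁ (Rep.of ρ) := hx
  have h0 : groupHomology.H1π (Rep.of ρ) ⟨x, hx'⟩ = 0 := by
    have := ModuleCat.isZero_iff_subsingleton.1 h
    exact Subsingleton.elim _ _
  obtain ⟨y, hy⟩ := (groupHomology.H1π_eq_zero_iff (⟨x, hx'⟩ : groupHomology.cycles₁ (Rep.of ρ))).1 h0
  exact ⟨y, hy⟩

/-- `Ĥ⁻²(G, A) = 0` gives the concrete vanishing of `H₁`. -/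
theorem h1Vanishes_of_isZero_tateCohomology (h : IsZero (tateCohomology (Rep.of ρ) (-2))) :
    H1Vanishes ρ := by
  apply h1Vanishes_of_isZero_groupHomology
  exact h.of_iso ((TateCohomology.isoGroupHomology (R := ℤ) (G := G) (-2) 1 rfl).app (Rep.of ρ)).symm

end bridge

section pgroup

variable {p : ℕ} [hp : Fact p.Prime] {G : Type} [Group G] [Fintype G]

/-- **Base case of the Nakayama criterion**: for a `p`-group `G` and a module `A` killed by `p`,
`Ĥ⁻²(G, A) = 0` implies that `A` is cohomologically trivial. -/
theorem isCohTrivial_of_isZero_neg_two (hG : IsPGroup p G) (A : Rep.{0} ℤ G)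
    (hpA : ∀ a : A, p • a = 0) (h : IsZero (tateCohomology A (-2))) : IsCohTrivial A := by
  induction A using rep_int_induction with
  | h A ρ =>
    obtain ⟨e, he⟩ := exists_regularRep_equiv (ρ := ρ) hG hpA (h1Vanishes_of_isZero_tateCohomology ρ h)
    refine (isCohTrivial_regularRep (G := G) (Coinvariants ρ)).of_iso
      (Rep.mkIso (Representation.Equiv.mk e (fun g => ?_)))
    apply LinearMap.ext
    intro l
    exact he g l

end pgroup

end Fermat.Agent.Lib.CFT.Coh
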