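/-
Cohomological triviality, part 4: Nakayama's criterion for `p`-groups and modules killed by `p`:
one vanishing Tate cohomology group implies cohomological triviality.
-/
import Mathlib
import Fermat.Agent.Lib.CFT.Coh.CohTriv.Base
import Fermat.Agent.Lib.CFT.Coh.InfRes

namespace Fermat.Agent.Lib.CFT.Coh.CohTriv

open Representation Finsupp CategoryTheory CategoryTheory.Limits

variable {G : Type} [Group G] [Fintype G]

section torsion

theorem nsmul_eq_zero_X₃ {S : ShortComplex (Rep.{0} ℤ G)} (hS : S.ShortExact) (r : ℕ)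
    (h : ∀ a : S.X₂, r • a = 0) (x : S.X₃) : r • x = 0 := by
  obtain ⟨f, rfl⟩ := InfRes.shortExact_surjective hS x
  rw [← map_nsmul, h, map_zero]

theorem nsmul_eq_zero_X₁ {S : ShortComplex (Rep.{0} ℤ G)} (hS : S.ShortExact) (r : ℕ)
    (h : ∀ a : S.X₂, r • a = 0) (x : S.X₁) : r • x = 0 := by
  apply InfRes.shortExact_injective hS
  rw [map_nsmul, h, map_zero]

theorem nsmul_coind₁_eq_zero (A : Rep.{0} ℤ G) (r : ℕ) (hA : ∀ a : A, r • a = 0)
    (f : @coind₁ ℤ G _ _ A.V A.hV1 A.hV2) : r • f = 0 := by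
  funext y
  exact hA (f y)

/-- `up A` is killed by `r` if `A` is. -/
theorem nsmul_up_eq_zero (A : Rep.{0} ℤ G) (r : ℕ) (hA : ∀ a : A, r • a = 0) (x : up A) :
    r • x = 0 :=
  nsmul_eq_zero_X₃ (upShortComplex_shortExact A) r (nsmul_coind₁_eq_zero A r hA) x

/-- `down A` is killed by `r` if `A` is. -/
theorem nsmul_down_eq_zero (A : Rep.{0} ℤ G) (r : ℕ) (hA : ∀ a : A, r • a = 0) (x : down A) :
    r • x = 0 :=
  nsmul_eq_zero_X₁ (downShortComplex_shortExact A) r (nsmul_coind₁_eq_zero A r hA) x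

theorem isCohTrivial_of_up (A : Rep.{0} ℤ G) (h : IsCohTrivial (up A)) : IsCohTrivial A :=
  IsCohTrivial.X₁ (S := upShortComplex A) (upShortComplex_shortExact A)
    (@isCohTrivial_coind₁ ℤ G _ _ A.V A.hV1 A.hV2) h

theorem isCohTrivial_of_down (A : Rep.{0} ℤ G) (h : IsCohTrivial (down A)) :
    IsCohTrivial A :=
  IsCohTrivial.X₃ (S := downShortComplex A) (downShortComplex_shortExact A) h
    (@isCohTrivial_coind₁ ℤ G _ _ A.V A.hV1 A.hV2)

end torsion

section pgroup

variable {p : ℕ} [hp : Fact p.Prime]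

/-- Auxiliary: the criterion in degrees `n = k - 2`, `k : ℕ`. -/
theorem isCohTrivial_of_isZero_aux_up (hG : IsPGroup p G) (k : ℕ) :
    ∀ (A : Rep.{0} ℤ G), (∀ a : A, p • a = 0) →
      IsZero (tateCohomology A ((k : ℤ) - 2)) → IsCohTrivial A := by
  induction k with
  | zero =>
    intro A hpA h
    exact isCohTrivial_of_isZero_neg_two hG A hpA (by simpa using h)
  | succ k ih =>
    intro A hpA h
    apply isCohTrivial_of_up
    apply ih (up A) (nsmul_up_eq_zero A p hpA)
    have e := upδIso A ((k : ℤ) - 2)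
    have h' : IsZero (tateCohomology A ((k : ℤ) - 2 + 1)) := by
      have : ((k + 1 : ℕ) : ℤ) - 2 = (k : ℤ) - 2 + 1 := by push_cast; ring
      rwa [this] at h
    exact h'.of_iso e

/-- Auxiliary: the criterion in degrees `n = -2 - k`, `k : ℕ`. -/
theorem isCohTrivial_of_isZero_aux_down (hG : IsPGroup p G) (k : ℕ) :
    ∀ (A : Rep.{0} ℤ G), (∀ a : A, p • a = 0) →
      IsZero (tateCohomology A (-2 - (k : ℤ))) → IsCohTrivial A := by
  induction k with
  | zero =>
    intro A hpA h
    exact isCohTrivial_of_isZero_neg_two hG A hpA (by simpa using h)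
  | succ k ih =>
    intro A hpA h
    apply isCohTrivial_of_down
    apply ih (down A) (nsmul_down_eq_zero A p hpA)
    have e := downδIso A (-2 - ((k + 1 : ℕ) : ℤ))
    have : -2 - ((k + 1 : ℕ) : ℤ) + 1 = -2 - (k : ℤ) := by push_cast; ring
    rw [this] at e
    exact h.of_iso e.symm

/-- **Nakayama's criterion, torsion case** (Serre, Local Fields IX §5 Thm 5): let `G` be a
`p`-group and `A` a `G`-module killed by `p`. If `Ĥⁿ(G, A) = 0` for one `n : ℤ`, then `A` is
cohomologically trivial. -/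
theorem isCohTrivial_of_pGroup_of_torsion (hG : IsPGroup p G) (A : Rep.{0} ℤ G)
    (hpA : ∀ a : A, p • a = 0) (n : ℤ) (h : IsZero (tateCohomology A n)) : IsCohTrivial A := by
  by_cases hn : -2 ≤ n
  · obtain ⟨k, hk⟩ := Int.eq_ofNat_of_zero_le (show 0 ≤ n + 2 by omega)
    apply isCohTrivial_of_isZero_aux_up hG k A hpA
    have : (k : ℤ) - 2 = n := by omega
    rwa [this]
  · obtain ⟨k, hk⟩ := Int.eq_ofNat_of_zero_le (show 0 ≤ -2 - n by omega)
    apply isCohTrivial_of_isZero_aux_down hG k A hpA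
    have : -2 - (k : ℤ) = n := by omega
    rwa [this]

end pgroup

end Fermat.Agent.Lib.CFT.Coh.CohTriv
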