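/-
Cohomological triviality, part 5: Nakayama's criterion for `p`-groups, general modules:
two consecutive vanishing Tate cohomology groups imply cohomological triviality.
-/
import Mathlib
import Fermat.Agent.Lib.CFT.Coh.CohTriv.PTorsion

namespace Fermat.Agent.Lib.CFT.Coh.CohTriv

open Representation Finsupp CategoryTheory CategoryTheory.Limits

variable {G : Type} [Group G] [Fintype G]

section mulP

variable {A : Type} [AddCommGroup A] (ρ : Representation ℤ G A) (p : ℕ)

/-- The submodule `pA`. -/
def smulRange : Submodule ℤ A := LinearMap.range (p • LinearMap.id : A →ₗ[ℤ] A)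

variable {ρ p} in
theorem mem_smulRange {x : A} : x ∈ smulRange (A := A) p ↔ ∃ a : A, p • a = x := by
  constructor
  · rintro ⟨a, rfl⟩
    exact ⟨a, rfl⟩
  · rintro ⟨a, rfl⟩
    exact ⟨a, rfl⟩

theorem smulRange_le_comap (g : G) :
    smulRange (A := A) p ≤ (smulRange (A := A) p).comap (ρ g) := by
  intro x hx
  obtain ⟨a, rfl⟩ := mem_smulRange.1 hx
  exact mem_smulRange.2 ⟨ρ g a, by rw [map_nsmul]⟩

/-- The sequence `A --p--> A --> A/pA`. -/
noncomputable def mulShortComplex : ShortComplex (Rep.{0} ℤ G) :=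
  ShortComplex.mk (p • 𝟙 (Rep.of ρ) : Rep.of ρ ⟶ Rep.of ρ)
    (Rep.mkQ (Rep.of ρ) (smulRange (A := A) p) (smulRange_le_comap ρ p)) (by
    apply Rep.hom_ext
    apply Representation.IntertwiningMap.ext
    apply LinearMap.ext
    intro a
    exact (Submodule.Quotient.mk_eq_zero _).2 (mem_smulRange.2 ⟨a, rfl⟩))

theorem mulShortComplex_shortExact (hA : ∀ a : A, p • a = 0 → a = 0) :
    (mulShortComplex ρ p).ShortExact := by
  refine InfRes.shortExact_of ?_ ?_ ?_
  · intro a b hab
    have h1 : p • a = p • b := hab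
    have h2 : p • (a - b) = 0 := by rw [smul_sub, h1, sub_self]
    exact sub_eq_zero.1 (hA _ h2)
  · intro y
    obtain ⟨x, rfl⟩ := Submodule.Quotient.mk_surjective _ y
    exact ⟨x, rfl⟩
  · intro x hx
    have : x ∈ smulRange (A := A) p := (Submodule.Quotient.mk_eq_zero _).1 hx
    obtain ⟨a, rfl⟩ := mem_smulRange.1 this
    exact ⟨a, rfl⟩

theorem nsmul_mulShortComplex_X₃ (y : (mulShortComplex ρ p).X₃) : p • y = 0 := by
  obtain ⟨x, rfl⟩ := Submodule.Quotient.mk_surjective _ y
  exact (Submodule.Quotient.mk_eq_zero _).2 (mem_smulRange.2 ⟨x, rfl⟩)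

end mulP

section torsionFree

variable {p : ℕ} [hp : Fact p.Prime]

/-- If multiplication by `p` is surjective on a module killed by a power of `p`, the module is
zero. -/
theorem subsingleton_of_smul_surjective {M : Type*} [AddCommGroup M] (k : ℕ)
    (hk : ∀ x : M, p ^ k • x = 0) (hsurj : ∀ x : M, ∃ y : M, p • y = x) : Subsingleton M := by
  have : ∀ j : ℕ, ∀ x : M, ∃ y : M, p ^ j • y = x := by
    intro j
    induction j with
    | zero => intro x; exact ⟨x, by simp⟩
    | succ j ih =>
      intro x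
      obtain ⟨y, rfl⟩ := ih x
      obtain ⟨z, rfl⟩ := hsurj y
      exact ⟨z, by rw [pow_succ, mul_smul]⟩
  refine ⟨fun x y => ?_⟩
  obtain ⟨x', rfl⟩ := this k x
  obtain ⟨y', rfl⟩ := this k y
  rw [hk, hk]

/-- **Nakayama's criterion, torsion-free case**: `G` a `p`-group, `A` without `p`-torsion, and
`Ĥⁿ(G, A) = Ĥⁿ⁺¹(G, A) = 0`. Then `A` is cohomologically trivial. -/
theorem isCohTrivial_of_pGroup_of_torsionFree_aux (hG : IsPGroup p G) {A : Type} [AddCommGroup A]
    (ρ : Representation ℤ G A) (hA : ∀ a : A, p • a = 0 → a = 0) (n : ℤ)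
    (h0 : IsZero (tateCohomology (Rep.of ρ) n)) (h1 : IsZero (tateCohomology (Rep.of ρ) (n + 1))) :
    IsCohTrivial (Rep.of ρ) := by
  have hS := mulShortComplex_shortExact ρ p hA
  -- `A/pA` is cohomologically trivial
  have hQ : IsCohTrivial (mulShortComplex ρ p).X₃ :=
    isCohTrivial_of_pGroup_of_torsion hG _ (nsmul_mulShortComplex_X₃ ρ p) n
      (isZero_tateCohomology_X₃ hS n h0 h1)
  intro H _ _ φ hφ m
  -- multiplication by `p` is surjective on `Ĥᵐ(H, A)`
  have hex := tateCohomology_exact₂ (shortExact_map_res φ hS) m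
  rw [ShortComplex.moduleCat_exact_iff] at hex
  have hsurj : ∀ x : tateCohomology (Rep.res φ (Rep.of ρ)) m,
      ∃ y : tateCohomology (Rep.res φ (Rep.of ρ)) m, p • y = x := by
    intro x
    obtain ⟨y, hy⟩ := hex x ((ModuleCat.isZero_iff_subsingleton.1 (hQ H φ hφ m)).elim _ _)
    refine ⟨y, ?_⟩
    rw [← hy]
    have : (tateCohomologyFunctor m).map ((Rep.resFunctor φ).map (mulShortComplex ρ p).f) =
        p • 𝟙 _ := by
      show (tateCohomologyFunctor m).map ((Rep.resFunctor φ).map (p • 𝟙 (Rep.of ρ))) = _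
      rw [Functor.map_nsmul, Functor.map_nsmul, CategoryTheory.Functor.map_id,
        CategoryTheory.Functor.map_id]
      rfl
    show p • y = ((tateCohomologyFunctor m).map ((Rep.resFunctor φ).map
      (mulShortComplex ρ p).f)).hom y
    rw [this]
    rfl
  -- `|H|` is a power of `p` and kills `Ĥᵐ(H, A)`
  have hH : IsPGroup p H := hG.of_injective φ hφ
  obtain ⟨k, hk⟩ := hH.exists_card_eq
  rw [Nat.card_eq_fintype_card] at hk
  have hkill : ∀ x : tateCohomology (Rep.res φ (Rep.of ρ)) m, p ^ k • x = 0 := by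
    intro x
    rw [← hk]
    exact card_nsmul_tateCohomology _ m x
  have := subsingleton_of_smul_surjective k hkill hsurj
  exact ModuleCat.isZero_of_subsingleton _

/-- **Nakayama's criterion, torsion-free case**: `G` a `p`-group, `A` without `p`-torsion, and
`Ĥⁿ(G, A) = Ĥⁿ⁺¹(G, A) = 0`. Then `A` is cohomologically trivial. -/
theorem isCohTrivial_of_pGroup_of_torsionFree (hG : IsPGroup p G) (A : Rep.{0} ℤ G)
    (hA : ∀ a : A, p • a = 0 → a = 0) (n : ℤ)
    (h0 : IsZero (tateCohomology A n)) (h1 : IsZero (tateCohomology A (n + 1))) :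
    IsCohTrivial A := by
  induction A using rep_int_induction with
  | h A ρ => exact isCohTrivial_of_pGroup_of_torsionFree_aux hG ρ hA n h0 h1

end torsionFree

section freeCover

variable {A : Type} [AddCommGroup A] (ρ : Representation ℤ G A)

/-- The canonical surjection `ℤ[G] ⊗ ℤ[A] → A`, `[g] ⊗ [a] ↦ g • a`. -/
noncomputable def coverMap : (G →₀ (A →₀ ℤ)) →ₗ[ℤ] A :=
  Finsupp.lsum ℤ fun g => (ρ g).comp (Finsupp.linearCombination ℤ (id : A → A))

@[simp] theorem coverMap_single (g : G) (l : A →₀ ℤ) :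
    coverMap ρ (single g l) = ρ g (Finsupp.linearCombination ℤ (id : A → A) l) := by
  simp [coverMap]

theorem coverMap_regularRep (h : G) (x : G →₀ (A →₀ ℤ)) :
    coverMap ρ (regularRep G (A →₀ ℤ) h x) = ρ h (coverMap ρ x) := by
  induction x using Finsupp.induction_linear with
  | zero => simp
  | add a b ha hb => simp only [map_add, ha, hb]
  | single g l => simp [regularRep_single]

theorem coverMap_surjective : Function.Surjective (coverMap ρ) := by
  intro a
  exact ⟨single 1 (single a 1), by simp⟩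

/-- The free cover as a morphism of representations. -/
noncomputable def coverHom : Rep.of (regularRep G (A →₀ ℤ)) ⟶ Rep.of ρ :=
  Rep.ofHom ⟨coverMap ρ, fun h => by
    apply LinearMap.ext
    intro x
    exact coverMap_regularRep ρ h x⟩

theorem ker_coverMap_le_comap (g : G) : LinearMap.ker (coverMap ρ) ≤
    (LinearMap.ker (coverMap ρ)).comap (regularRep G (A →₀ ℤ) g) := by
  intro x hx
  rw [Submodule.mem_comap, LinearMap.mem_ker, coverMap_regularRep, LinearMap.mem_ker.1 hx,
    map_zero]

/-- The sequence `0 → R → ℤ[G] ⊗ ℤ[A] → A → 0`. -/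
noncomputable def coverShortComplex : ShortComplex (Rep.{0} ℤ G) :=
  ShortComplex.mk
    (Rep.subtype (Rep.of (regularRep G (A →₀ ℤ))) (LinearMap.ker (coverMap ρ))
      (ker_coverMap_le_comap ρ))
    (coverHom ρ) (by
      apply Rep.hom_ext
      apply Representation.IntertwiningMap.ext
      apply LinearMap.ext
      intro x
      exact x.2)

theorem coverShortComplex_shortExact : (coverShortComplex ρ).ShortExact := by
  refine InfRes.shortExact_of ?_ ?_ ?_
  · intro a b hab
    exact Subtype.ext hab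
  · exact coverMap_surjective ρ
  · intro x hx
    exact ⟨⟨x, hx⟩, rfl⟩

theorem coverShortComplex_X₁_torsionFree (p : ℕ) (hp : p ≠ 0) (x : (coverShortComplex ρ).X₁)
    (hx : p • x = 0) : x = 0 := by
  apply InfRes.shortExact_injective (coverShortComplex_shortExact ρ)
  rw [map_zero]
  have h2 : p • ((coverShortComplex ρ).f.hom x) = 0 := by rw [← map_nsmul, hx, map_zero]
  have h3 : ∀ y : G →₀ (A →₀ ℤ), p • y = 0 → y = 0 :=
    fun y hy => (smul_eq_zero.1 hy).resolve_left hp
  exact h3 _ h2

end freeCover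

section general

variable {p : ℕ} [hp : Fact p.Prime]

/-- **Nakayama's criterion for `p`-groups** (Serre, Local Fields IX §5 Thm 8): let `G` be a
`p`-group and `A` a `G`-module with `Ĥⁿ(G, A) = Ĥⁿ⁺¹(G, A) = 0` for one `n : ℤ`. Then `A` is
cohomologically trivial. -/
theorem isCohTrivial_of_pGroup (hG : IsPGroup p G) (A : Rep.{0} ℤ G) (n : ℤ)
    (h0 : IsZero (tateCohomology A n)) (h1 : IsZero (tateCohomology A (n + 1))) :
    IsCohTrivial A := by
  induction A using rep_int_induction with
  | h A ρ =>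
    have hS := coverShortComplex_shortExact ρ
    have hF : IsCohTrivial (coverShortComplex ρ).X₂ := isCohTrivial_regularRep (G := G) (A →₀ ℤ)
    -- the kernel is torsion-free with two vanishing cohomology groups
    have hR0 : IsZero (tateCohomology (coverShortComplex ρ).X₁ (n + 1)) :=
      isZero_tateCohomology_X₁ hS n h0 (hF.isZero (n + 1))
    have hR1 : IsZero (tateCohomology (coverShortComplex ρ).X₁ (n + 1 + 1)) :=
      isZero_tateCohomology_X₁ hS (n + 1) h1 (hF.isZero (n + 1 + 1))
    have hR : IsCohTrivial (coverShortComplex ρ).X₁ :=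
      isCohTrivial_of_pGroup_of_torsionFree hG _
        (coverShortComplex_X₁_torsionFree ρ p hp.out.ne_zero) (n + 1) hR0 hR1
    exact IsCohTrivial.X₃ (S := coverShortComplex ρ) hS hR hF

end general

end Fermat.Agent.Lib.CFT.Coh.CohTriv
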