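/-
Cohomological triviality, part 6: detection of vanishing of Tate cohomology on Sylow subgroups,
and the general Nakayama–Tate criterion.
-/
import Mathlib
import Fermat.Agent.Lib.CFT.Coh.CohTriv.PGroupGeneral

namespace Fermat.Agent.Lib.CFT.Coh.CohTriv

open Representation Finsupp CategoryTheory CategoryTheory.Limits

section arithmetic

/-- A subgroup of `ℤ` containing, for every prime `p`, a natural number prime to `p`, contains
`1`. -/
theorem one_mem_of_forall_prime (J : AddSubgroup ℤ)
    (h : ∀ p : ℕ, p.Prime → ∃ d : ℕ, (d : ℤ) ∈ J ∧ ¬ p ∣ d) : (1 : ℤ) ∈ J := by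
  obtain ⟨a, rfl⟩ := Int.subgroup_cyclic J
  by_cases ha : a.natAbs = 1
  · rcases Int.natAbs_eq a with h1 | h1
    · rw [h1, ha]
      exact AddSubgroup.subset_closure rfl
    · have : (1 : ℤ) = -a := by rw [h1, ha]; simp
      rw [this]
      exact AddSubgroup.neg_mem _ (AddSubgroup.subset_closure rfl)
  · obtain ⟨p, hp, hpa⟩ := Nat.exists_prime_and_dvd ha
    obtain ⟨d, hd, hpd⟩ := h p hp
    rw [AddSubgroup.mem_closure_singleton] at hd
    obtain ⟨n, hn⟩ := hd
    exfalso
    apply hpd
    have h1 : (a.natAbs : ℤ) ∣ (d : ℤ) := by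
      rw [Int.natAbs_dvd]
      exact ⟨n, by rw [← hn, smul_eq_mul, mul_comm]⟩
    exact hpa.trans (Int.natCast_dvd_natCast.1 h1)

end arithmetic

section cosets

variable {H : Type} [Group H] [Fintype H]

theorem sum_eq_sum_quotient_sum (P : Subgroup H) [Fintype P] [Fintype (H ⧸ P)] {M : Type*}
    [AddCommMonoid M] (f : H → M) :
    ∑ h, f h = ∑ c : H ⧸ P, ∑ q : P, f (c.out * q) := by
  rw [← Fintype.sum_prod_type']
  symm
  refine Fintype.sum_bijective (fun x : (H ⧸ P) × P => x.1.out * (x.2 : H)) ⟨?_, ?_⟩ _ _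
    (fun _ => rfl)
  · rintro ⟨c, q⟩ ⟨c', q'⟩ hcq
    simp only at hcq
    have h1 : ((c.out * (q : H) : H) : H ⧸ P) = c := by
      rw [QuotientGroup.mk_mul_of_mem _ q.2, QuotientGroup.out_eq']
    have h2 : ((c'.out * (q' : H) : H) : H ⧸ P) = c' := by
      rw [QuotientGroup.mk_mul_of_mem _ q'.2, QuotientGroup.out_eq']
    have hc : c = c' := by rw [← h1, ← h2, hcq]
    subst hc
    have : (q : H) = q' := mul_left_cancel hcq
    rw [Subtype.ext this]
  · intro h
    have hmem : ((h : H ⧸ P).out)⁻¹ * h ∈ P := QuotientGroup.eq.1 (QuotientGroup.out_eq' (h : H ⧸ P))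
    exact ⟨((h : H ⧸ P), ⟨_, hmem⟩), by simp⟩

end cosets

section degreeZero

variable {H : Type} [Group H] [Fintype H] {A : Type} [AddCommGroup A]
  (ρ : Representation ℤ H A)

/-- The norm of `H` is the sum over cosets of the norm of a subgroup `P`. -/
theorem norm_eq_sum_quotient (P : Subgroup H) [Fintype P] [Fintype (H ⧸ P)] (b : A) :
    ρ.norm b = ∑ c : H ⧸ P, ρ c.out (Representation.norm (G := P) (ρ.comp P.subtype) b) := by
  simp only [Representation.norm, LinearMap.sum_apply, map_sum]
  rw [sum_eq_sum_quotient_sum P]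
  refine Finset.sum_congr rfl fun c _ => Finset.sum_congr rfl fun q _ => ?_
  rw [map_mul]
  rfl

/-- If `m` is `H`-invariant and a `P`-norm, then `[H : P] • m` is an `H`-norm. -/
theorem index_smul_mem_range_norm (P : Subgroup H) [Fintype P] (m : A)
    (hm : ∀ g : H, ρ g m = m) (b : A) (hb : Representation.norm (G := P) (ρ.comp P.subtype) b = m) :
    ∃ m' : A, ρ.norm m' = P.index • m := by
  classical
  refine ⟨b, ?_⟩
  rw [norm_eq_sum_quotient ρ P b, hb]
  simp only [hm, Finset.sum_const, Finset.card_univ]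
  rw [Subgroup.index, Nat.card_eq_fintype_card]

theorem isZero_tateCohomology_zero_of_subgroups_aux
    (h : ∀ p : ℕ, p.Prime → ∃ P : Subgroup H, ¬ p ∣ P.index ∧
      ∀ [Fintype P], IsZero (tateCohomology (Rep.res P.subtype (Rep.of ρ)) 0)) :
    IsZero (tateCohomology (Rep.of ρ) 0) := by
  classical
  rw [Induced.isZero_tateCohomology_zero_iff]
  intro m hm
  let J : AddSubgroup ℤ :=
    { carrier := {d | ∃ m' : A, ρ.norm m' = d • m}
      add_mem' := by
        rintro a b ⟨x, hx⟩ ⟨y, hy⟩
        exact ⟨x + y, by rw [map_add, hx, hy, add_smul]⟩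
      zero_mem' := ⟨0, by simp⟩
      neg_mem' := by
        rintro a ⟨x, hx⟩
        exact ⟨-x, by rw [map_neg, hx, neg_smul]⟩ }
  have h1 : (1 : ℤ) ∈ J := by
    apply one_mem_of_forall_prime
    intro p hp
    obtain ⟨P, hPi, hP⟩ := h p hp
    refine ⟨P.index, ?_, hPi⟩
    have hP' := (Induced.isZero_tateCohomology_zero_iff (Rep.res P.subtype (Rep.of ρ))).1 hP
    obtain ⟨b, hb⟩ := hP' m (fun g => hm g)
    obtain ⟨m', hm'⟩ := index_smul_mem_range_norm ρ P m hm b hb
    exact ⟨m', by rw [hm', natCast_zsmul]⟩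
  obtain ⟨m', hm'⟩ := h1
  exact ⟨m', by rw [hm', one_smul]⟩

/-- **Sylow detection in degree zero.** -/
theorem isZero_tateCohomology_zero_of_subgroups (M : Rep.{0} ℤ H)
    (h : ∀ p : ℕ, p.Prime → ∃ P : Subgroup H, ¬ p ∣ P.index ∧
      ∀ [Fintype P], IsZero (tateCohomology (Rep.res P.subtype M) 0)) :
    IsZero (tateCohomology M 0) := by
  induction M using rep_int_induction with
  | h A ρ => exact isZero_tateCohomology_zero_of_subgroups_aux ρ h

end degreeZero

section allDegrees

variable {H : Type} [Group H] [Fintype H]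

/-- For every prime `p` there is a subgroup of index prime to `p` on which `Ĥⁿ` vanishes. -/
def SubgroupsVanish (M : Rep.{0} ℤ H) (n : ℤ) : Prop :=
  ∀ p : ℕ, p.Prime → ∃ P : Subgroup H, ¬ p ∣ P.index ∧
    ∀ [Fintype P], IsZero (tateCohomology (Rep.res P.subtype M) n)

theorem subgroupsVanish_up (M : Rep.{0} ℤ H) (n : ℤ) (h : SubgroupsVanish M (n + 1)) :
    SubgroupsVanish (up M) n := by
  intro p hp
  obtain ⟨P, hPi, hP⟩ := h p hp
  refine ⟨P, hPi, ?_⟩
  intro _
  exact hP.of_iso (upδIsoRes P.subtype P.subtype_injective M n)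

theorem subgroupsVanish_down (M : Rep.{0} ℤ H) (n : ℤ) (h : SubgroupsVanish M n) :
    SubgroupsVanish (down M) (n + 1) := by
  intro p hp
  obtain ⟨P, hPi, hP⟩ := h p hp
  refine ⟨P, hPi, ?_⟩
  intro _
  exact hP.of_iso (downδIsoRes P.subtype P.subtype_injective M n).symm

theorem isZero_tateCohomology_of_subgroupsVanish_nat (k : ℕ) :
    ∀ M : Rep.{0} ℤ H, SubgroupsVanish M k → IsZero (tateCohomology M k) := by
  induction k with
  | zero =>
    intro M h
    exact isZero_tateCohomology_zero_of_subgroups M h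
  | succ k ih =>
    intro M h
    have h' : SubgroupsVanish M ((k : ℤ) + 1) := by
      have : ((k + 1 : ℕ) : ℤ) = (k : ℤ) + 1 := by push_cast; ring
      rwa [this] at h
    have := ih (up M) (subgroupsVanish_up M k h')
    have e := upδIso M (k : ℤ)
    have hz := this.of_iso e.symm
    have : ((k + 1 : ℕ) : ℤ) = (k : ℤ) + 1 := by push_cast; ring
    rwa [this]

theorem isZero_tateCohomology_of_subgroupsVanish_neg (k : ℕ) :
    ∀ M : Rep.{0} ℤ H, SubgroupsVanish M (-(k : ℤ)) → IsZero (tateCohomology M (-(k : ℤ))) := by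
  induction k with
  | zero =>
    intro M h
    simp only [CharP.cast_eq_zero, neg_zero] at h ⊢
    exact isZero_tateCohomology_zero_of_subgroups M h
  | succ k ih =>
    intro M h
    have hk : -((k + 1 : ℕ) : ℤ) + 1 = -(k : ℤ) := by push_cast; ring
    have h' := subgroupsVanish_down M _ h
    rw [hk] at h'
    have := ih (down M) h'
    have e := downδIso M (-((k + 1 : ℕ) : ℤ))
    rw [hk] at e
    exact this.of_iso e

/-- **Sylow detection**: if for every prime `p` the group `Ĥⁿ` vanishes on a subgroup of index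
prime to `p` (e.g. a Sylow `p`-subgroup), then `Ĥⁿ(H, M) = 0`. -/
theorem isZero_tateCohomology_of_subgroupsVanish (M : Rep.{0} ℤ H) (n : ℤ)
    (h : SubgroupsVanish M n) : IsZero (tateCohomology M n) := by
  rcases Int.eq_nat_or_neg n with ⟨k, rfl | rfl⟩
  · exact isZero_tateCohomology_of_subgroupsVanish_nat k M h
  · exact isZero_tateCohomology_of_subgroupsVanish_neg k M h

end allDegrees

section criterion

variable {G : Type} [Group G]

/-- **The Nakayama–Tate criterion**: if `Ĥⁿ` and `Ĥⁿ⁺¹` of `A` vanish after restriction along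
every injective homomorphism from a finite group (e.g. on every subgroup), then `A` is
cohomologically trivial. -/
theorem isCohTrivial_of_forall (A : Rep.{0} ℤ G) (n : ℤ)
    (h : ∀ (H : Type) [Group H] [Fintype H] (φ : H →* G), Function.Injective φ →
      IsZero (tateCohomology (Rep.res φ A) n) ∧ IsZero (tateCohomology (Rep.res φ A) (n + 1))) :
    IsCohTrivial A := by
  intro H _ _ φ hφ m
  apply isZero_tateCohomology_of_subgroupsVanish
  intro p hp
  haveI := Fact.mk hp
  let P : Sylow p H := default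
  refine ⟨P, P.not_dvd_index, ?_⟩
  intro _
  have hP : IsPGroup p (P : Subgroup H) := P.isPGroup'
  have hinj : Function.Injective (φ.comp (P : Subgroup H).subtype) :=
    hφ.comp (P : Subgroup H).subtype_injective
  have h2 := h (P : Subgroup H) (φ.comp (P : Subgroup H).subtype) hinj
  have := isCohTrivial_of_pGroup hP (Rep.res (P : Subgroup H).subtype (Rep.res φ A)) n h2.1 h2.2
  exact this.isZero m

end criterion

end Fermat.Agent.Lib.CFT.Coh.CohTriv
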