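/-
Cohomological triviality, part 7: the Nakayama–Tate criterion with one Sylow subgroup per prime.
-/
import Mathlib
import Fermat.Agent.Lib.CFT.Coh.CohTriv.Sylow

namespace Fermat.Agent.Lib.CFT.Coh.CohTriv

open Representation Finsupp CategoryTheory CategoryTheory.Limits

variable {G : Type} [Group G]

section conj

variable {A : Type} [AddCommGroup A] (ρ : Representation ℤ G A)

/-- `ρ g` as a linear equivalence. -/
noncomputable def actEquiv (g : G) : A ≃ₗ[ℤ] A :=
  LinearEquiv.ofLinear (ρ g) (ρ g⁻¹)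
    (by rw [← Module.End.mul_eq_comp, ← map_mul, mul_inv_cancel, map_one]; rfl)
    (by rw [← Module.End.mul_eq_comp, ← map_mul, inv_mul_cancel, map_one]; rfl)

@[simp] theorem actEquiv_apply (g : G) (a : A) : actEquiv ρ g a = ρ g a := rfl

/-- Conjugating the homomorphism does not change the restricted representation up to
isomorphism: `res ψ A ≅ res φ A` if `ψ x = g⁻¹ φ(x) g`. -/
noncomputable def resConjIso {H : Type} [Group H] (φ ψ : H →* G) (g : G)
    (h : ∀ x, ψ x = g⁻¹ * φ x * g) : Rep.res ψ (Rep.of ρ) ≅ Rep.res φ (Rep.of ρ) :=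
  Rep.mkIso (Representation.Equiv.mk (actEquiv ρ g) (fun x => by
    apply LinearMap.ext
    intro a
    show ρ g (ρ (ψ x) a) = ρ (φ x) (ρ g a)
    rw [h x, ← Module.End.mul_apply, ← Module.End.mul_apply, ← map_mul, ← map_mul]
    congr 2
    group))

end conj

section criterion

variable [Fintype G]

theorem isCohTrivial_of_sylow_aux {A : Type} [AddCommGroup A] (ρ : Representation ℤ G A)
    (h : ∀ p : ℕ, p.Prime → ∃ (P : Subgroup G) (n : ℤ), IsPGroup p P ∧ ¬ p ∣ P.index ∧
      ∀ [Fintype P], IsZero (tateCohomology (Rep.res P.subtype (Rep.of ρ)) n) ∧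
        IsZero (tateCohomology (Rep.res P.subtype (Rep.of ρ)) (n + 1))) :
    IsCohTrivial (Rep.of ρ) := by
  classical
  intro H _ _ φ hφ m
  apply isZero_tateCohomology_of_subgroupsVanish
  intro p hp
  haveI := Fact.mk hp
  let Q : Sylow p H := default
  refine ⟨Q, Q.not_dvd_index, ?_⟩
  intro _
  obtain ⟨P, n, hP, hidx, hvan⟩ := h p hp
  let _ : Fintype P := Fintype.ofFinite P
  -- `A` restricted to `P` is cohomologically trivial
  have hPtriv : IsCohTrivial (Rep.res P.subtype (Rep.of ρ)) :=
    isCohTrivial_of_pGroup hP _ n hvan.1 hvan.2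
  -- the image of `Q` is contained in a conjugate of `P`
  have hQ : IsPGroup p ((Q : Subgroup H).map φ) := Q.isPGroup'.map φ
  obtain ⟨Q', hQ'⟩ := hQ.exists_le_sylow
  obtain ⟨g, hg⟩ := MulAction.exists_smul_eq G (hP.toSylow hidx) Q'
  have hmem : ∀ q : (Q : Subgroup H), g⁻¹ * φ q * g ∈ P := by
    intro q
    have h1 : φ q ∈ (Q' : Subgroup G) := hQ' ⟨q, q.2, rfl⟩
    rw [← hg, Sylow.coe_subgroup_smul, Subgroup.mem_pointwise_smul_iff_inv_smul_mem] at h1
    simpa [MulAut.smul_def, MulAut.conj_inv_apply] using h1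
  let ψ : (Q : Subgroup H) →* P :=
    { toFun := fun q => ⟨g⁻¹ * φ q * g, hmem q⟩
      map_one' := by
        apply Subtype.ext
        simp
      map_mul' := fun a b => by
        apply Subtype.ext
        simp only [Subgroup.coe_mul, map_mul]
        group }
  have hψ : Function.Injective ψ := by
    intro a b hab
    have h1 : g⁻¹ * φ a * g = g⁻¹ * φ b * g := congrArg Subtype.val hab
    have h2 : φ a = φ b := by
      have := congrArg (fun x => g * x * g⁻¹) h1
      simpa [mul_assoc] using this
    exact Subtype.ext (hφ h2)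
  have h0 := hPtriv (Q : Subgroup H) ψ hψ m
  exact h0.of_iso ((tateCohomologyFunctor m).mapIso
    (resConjIso ρ (φ.comp (Q : Subgroup H).subtype) (P.subtype.comp ψ) g (fun x => rfl))).symm

/-- **The Nakayama–Tate criterion, Sylow form** (Serre, Local Fields IX §5 Thm 8/9): if for every
prime `p` some Sylow `p`-subgroup `P` of the finite group `G` has
`Ĥⁿ(P, A) = Ĥⁿ⁺¹(P, A) = 0` for some `n` (depending on `p`), then `A` is cohomologically
trivial. -/
theorem isCohTrivial_of_sylow (A : Rep.{0} ℤ G)
    (h : ∀ p : ℕ, p.Prime → ∃ (P : Subgroup G) (n : ℤ), IsPGroup p P ∧ ¬ p ∣ P.index ∧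
      ∀ [Fintype P], IsZero (tateCohomology (Rep.res P.subtype A) n) ∧
        IsZero (tateCohomology (Rep.res P.subtype A) (n + 1))) :
    IsCohTrivial A := by
  induction A using rep_int_induction with
  | h A ρ => exact isCohTrivial_of_sylow_aux ρ h

end criterion

end Fermat.Agent.Lib.CFT.Coh.CohTriv
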