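import Mathlib

/-!
# Modules over a `p`-group killed by `p`

Pure module theory used in the cohomological triviality criterion (Nakayama):
for a finite `p`-group `G` acting on an abelian group `A` with `p • A = 0`,
* if `A ≠ 0` then `A` has a nonzero `G`-fixed element;
* if every element of `A` is a sum of elements `g • a - a`, then `A = 0`.
-/

set_option autoImplicit false

namespace Fermat.Agent.Lib.CFT.Coh

open Representation

variable {p : ℕ} [hp : Fact p.Prime] {G : Type*} [Group G] [Finite G]
  {A : Type*} [AddCommGroup A]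

/-- A finite `p`-group acting on a nonzero abelian group killed by `p` has a nonzero fixed
element. -/
theorem exists_ne_zero_mem_invariants (hG : IsPGroup p G) (ρ : Representation ℤ G A)
    (hpA : ∀ a : A, p • a = 0) [Nontrivial A] : ∃ a ∈ ρ.invariants, a ≠ 0 := by
  classical
  obtain ⟨a, ha⟩ := exists_ne (0 : A)
  obtain ⟨_inst⟩ : Nonempty (Module (ZMod p) A) := ⟨AddCommGroup.zmodModule hpA⟩
  -- the `ZMod p`-span of the orbit of `a`
  let W : Submodule (ZMod p) A := Submodule.span (ZMod p) (Set.range fun g : G => ρ g a)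
  have hWfin : Finite ↥W := by
    have : Module.Finite (ZMod p) ↥W := Module.Finite.span_of_finite _ (Set.finite_range _)
    exact Module.finite_of_finite (ZMod p)
  have hstable : ∀ (h : G) (w : A), w ∈ W → ρ h w ∈ W := by
    intro h w hw
    induction hw using Submodule.span_induction with
    | mem x hx =>
      obtain ⟨g, rfl⟩ := hx
      refine Submodule.subset_span ⟨h * g, ?_⟩
      simp [map_mul]
    | zero => simp
    | add x y _ _ hx hy => rw [map_add]; exact W.add_mem hx hy
    | smul c x _ hx =>
      have : ρ h (c • x) = c • ρ h x := ZMod.map_smul (ρ h).toAddMonoidHom c x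
      rw [this]; exact W.smul_mem c hx
  let _ : MulAction G ↥W :=
    { smul := fun g w => ⟨ρ g w.1, hstable g w.1 w.2⟩
      one_smul := fun w => Subtype.ext (show ρ 1 w.1 = w.1 by simp)
      mul_smul := fun g h w => Subtype.ext (show ρ (g * h) w.1 = ρ g (ρ h w.1) by simp [map_mul]) }
  have hsmul : ∀ (g : G) (w : ↥W), ((g • w : ↥W) : A) = ρ g w.1 := fun _ _ => rfl
  have haW : a ∈ W := Submodule.subset_span ⟨1, by simp⟩
  -- `p` divides the cardinality of `W`
  have hcard : p ∣ Nat.card ↥W := by
    have hnt : Nontrivial ↥W := ⟨⟨⟨a, haW⟩, 0, fun h => ha (congrArg Subtype.val h)⟩⟩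
    have hfin : Module.Finite (ZMod p) ↥W := Module.Finite.span_of_finite _ (Set.finite_range _)
    have := Module.natCard_eq_pow_finrank (K := ZMod p) (V := ↥W)
    rw [this, Nat.card_zmod]
    have hpos : 0 < Module.finrank (ZMod p) ↥W := Module.finrank_pos
    exact dvd_pow_self p hpos.ne'
  have h0 : (0 : ↥W) ∈ MulAction.fixedPoints G ↥W := by
    intro g
    exact Subtype.ext (by rw [hsmul]; simp)
  obtain ⟨b, hb, hb0⟩ := hG.exists_fixed_point_of_prime_dvd_card_of_fixed_point ↥W hcard h0
  refine ⟨b.1, ?_, fun h => hb0 (Subtype.ext h.symm)⟩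
  intro g
  have := hb g
  exact congrArg Subtype.val this

/-- The representation of `G` on the group of additive maps `A →+ B` (trivial action on `B`),
`(g • φ) a = φ (g⁻¹ • a)`. -/
def addHomRep (ρ : Representation ℤ G A) (B : Type*) [AddCommGroup B] :
    Representation ℤ G (A →+ B) where
  toFun g :=
    { toFun := fun φ => φ.comp (ρ g⁻¹).toAddMonoidHom
      map_add' := fun φ ψ => by ext a; simp
      map_smul' := fun n φ => by ext a; simp }
  map_one' := by ext φ a; simp
  map_mul' g h := by ext φ a; simp [map_mul]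

omit [Finite G] in
@[simp]
theorem addHomRep_apply (ρ : Representation ℤ G A) (B : Type*) [AddCommGroup B] (g : G)
    (φ : A →+ B) (a : A) : addHomRep ρ B g φ a = φ (ρ g⁻¹ a) := rfl

/-- If a finite `p`-group acts on an abelian group `A` killed by `p` and `A` is generated by the
elements `g • a - a`, then `A = 0`. -/
theorem subsingleton_of_coinvariantsKer_eq_top (hG : IsPGroup p G) (ρ : Representation ℤ G A)
    (hpA : ∀ a : A, p • a = 0) (h : Coinvariants.ker ρ = ⊤) : Subsingleton A := by
  classical
  by_contra hne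
  rw [not_subsingleton_iff_nontrivial] at hne
  obtain ⟨a, ha⟩ := exists_ne (0 : A)
  obtain ⟨_inst⟩ : Nonempty (Module (ZMod p) A) := ⟨AddCommGroup.zmodModule hpA⟩
  -- a functional not vanishing at `a`
  obtain ⟨f, hf⟩ : ∃ f : Module.Dual (ZMod p) A, f a ≠ 0 := by
    by_contra hcon
    push Not at hcon
    exact ha ((Module.forall_dual_apply_eq_zero_iff (ZMod p) a).mp hcon)
  have hB : Nontrivial (A →+ ZMod p) :=
    ⟨⟨f.toAddMonoidHom, 0, fun h0 => hf (by simpa using DFunLike.congr_fun h0 a)⟩⟩
  have hpB : ∀ φ : A →+ ZMod p, p • φ = 0 := by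
    intro φ
    ext x
    simp
  obtain ⟨φ, hφ, hφ0⟩ := exists_ne_zero_mem_invariants hG (addHomRep ρ (ZMod p)) hpB
  apply hφ0
  -- an invariant functional kills `Coinvariants.ker ρ = ⊤`
  have hker : ∀ x ∈ Coinvariants.ker ρ, φ x = 0 := by
    intro x hx
    induction hx using Submodule.span_induction with
    | mem y hy =>
      obtain ⟨⟨g, v⟩, rfl⟩ := hy
      have := DFunLike.congr_fun (hφ g⁻¹) (v)
      simp only [addHomRep_apply, inv_inv] at this
      simp [this]
    | zero => simp
    | add x y _ _ hx hy => simp [hx, hy]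
    | smul c x _ hx => simp [hx]
  ext x
  exact hker x (h ▸ Submodule.mem_top)

end Fermat.Agent.Lib.CFT.Coh
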